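import Fermat.Statements.S24
import Fermat.Agent.S24.An.Hol
import Fermat.Agent.S24.JAnDef

/-!
# S24: the interface between the analytic construction and the algebraic counting

`ModClosure N` packages a finite Galois closure `L` of `F_N = Q̄(j(q^d) : d ∣ N)` over
`E_N = Q̄(j)`, the surjection `SL(2,ℤ) → Gal(L/E_N)` whose preimage of `Gal(L/F_N)` is `Γ₀(N)`,
and the valuations of `L` coming from the points of `ℍ` and from the cusp `∞`.
-/

set_option autoImplicit false

noncomputable section

namespace Fermat.Agent.S24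

open ModularCurve AlgebraicCurve UpperHalfPlane WithZero IntermediateField
open scoped MatrixGroups

/-- `Q̄`. -/
abbrev Kbar : Type := AlgebraicClosure ℚ

/-- The function field of `X₀(N)` over `Q̄`, as a type. -/
abbrev FN (N : ℕ) : Type := ↥(modularFunctionFieldBar N)

/-- A fixed embedding `Q̄ → ℂ`. -/
def iotaC : Kbar →+* ℂ :=
  haveI : Algebra.IsAlgebraic ℚ Kbar := AlgebraicClosure.isAlgebraic ℚ
  (IsAlgClosed.lift : Kbar →ₐ[ℚ] ℂ).toRingHom

/-- The formal `j`, with coefficients in `Q̄`. -/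
def jBar : LaurentSeries Kbar := coeffEmb Kbar jq

theorem jBar_mem (N : ℕ) [NeZero N] : jBar ∈ modularFunctionFieldBar N := by
  have h := jqd_mem_full N (one_dvd N)
  rw [qExpand_one_apply] at h
  exact coeffEmb_mem_laurentBaseChange Kbar h

/-- `j` as an element of `F_N`. -/
def jF (N : ℕ) [NeZero N] : FN N := ⟨jBar, jBar_mem N⟩

/-- The order of vanishing of `j - j(τ)` at `τ`. -/
def jOrd (τ : ℍ) : ℕ :=
  (analyticOrderAt (fun z : ℂ => jAn (ofComplex z) - jAn τ) (τ : ℂ)).toNat

/-- A Galois closure of `F_N / Q̄(j)` with its modular structure.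
`E` is (a copy of) the rational function field `Q̄(j)`, generated by `t ↦ j`. -/
structure ModClosure (N : ℕ) [NeZero N] where
  /-- the base field `Q̄(j)` -/
  E : Type
  /-- the Galois closure -/
  L : Type
  [instFieldE : Field E]
  [instField : Field L]
  [instAlgKE : Algebra Kbar E]
  [instAlgK : Algebra Kbar L]
  [instAlgEF : Algebra E (FN N)]
  [instAlgF : Algebra (FN N) L]
  [instAlgE : Algebra E L]
  [towerKEF : IsScalarTower Kbar E (FN N)]
  [towerKFL : IsScalarTower Kbar (FN N) L]
  [towerEFL : IsScalarTower E (FN N) L]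
  [towerKEL : IsScalarTower Kbar E L]
  [finite : FiniteDimensional E L]
  [galois : IsGalois E L]
  /-- the generator `j` of `E` -/
  t : E
  t_transcendental : Transcendental Kbar t
  t_map : algebraMap E (FN N) t = jF N
  t_gen : ∀ y : E, ∃ p q : Polynomial Kbar, Polynomial.aeval t q ≠ 0 ∧
    y = Polynomial.aeval t p / Polynomial.aeval t q
  /-- the action of the modular group -/
  π : SL(2, ℤ) →* (L ≃ₐ[E] L)
  π_surjective : Function.Surjective π
  π_comap : (IntermediateField.fixingSubgroup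
      (IsScalarTower.toAlgHom E (FN N) L).fieldRange).comap π = CongruenceSubgroup.Gamma0 N
  /-- the valuation at a point of `ℍ` -/
  w : ℍ → Valuation L ℤᵐ⁰
  w_algebraMap : ∀ (τ : ℍ) (c : Kbar), c ≠ 0 → w τ (algebraMap Kbar L c) = 1
  w_π : ∀ (τ : ℍ) (γ : SL(2, ℤ)) (y : L), w τ (π γ y) = w (γ⁻¹ • τ) y
  w_j : ∀ (τ : ℍ) (a : Kbar), iotaC a = jAn τ →
    w τ (algebraMap E L (t - algebraMap Kbar E a)) = exp (-(jOrd τ : ℤ))
  /-- the valuation at the cusp `∞` (order in `q^(1/N)`) -/
  winf : Valuation L ℤᵐ⁰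
  winf_algebraMap : ∀ c : Kbar, c ≠ 0 → winf (algebraMap Kbar L c) = 1
  winf_π_T : ∀ y : L, winf (π ModularGroup.T y) = winf y
  winf_j : winf (algebraMap E L t⁻¹) = exp (-(N : ℤ))

end Fermat.Agent.S24
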