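import Fermat.Agent.S24.Closure.Val

/-!
# S24 construction, final layer: `modClosure N : ModClosure N`
-/

set_option autoImplicit false

noncomputable section

namespace Fermat.Agent.S24

open ModularCurve UpperHalfPlane WithZero
open scoped MatrixGroups Manifold

theorem tE_transcendental : Transcendental Kbar tE :=
  (transcendental_algebraMap_iff (IsFractionRing.injective (Polynomial Kbar) EN)).mpr
    (Polynomial.transcendental_X Kbar)

/-- The Galois closure of `F_N / Q̄(j)` with its modular structure. -/
def modClosure (N : ℕ) [NeZero N] : ModClosure N where
  E := EN
  L := LN N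
  t := tE
  t_transcendental := tE_transcendental
  t_map := tE_map_FN N
  t_gen := tE_gen
  π := piN N
  π_surjective := piN_surjective N
  π_comap := piN_comap N
  w := wN N
  w_algebraMap := wN_algebraMap N
  w_π := wN_piN N
  w_j := wN_j N
  winf := winfN N
  winf_algebraMap := winfN_algebraMap N
  winf_π_T := winfN_piN_T N
  winf_j := winfN_j N

end Fermat.Agent.S24
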