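import Fermat.Agent.S24.Closure.UExp

/-!
# S24 construction, layer 1d (WP CLO-UExpSubst): substitutions in expansions at `∞`

Filled by helper17 (signatures of `of_hasSum_mul_q`, `comp_translate`, `comp_affine` kept).
-/

set_option autoImplicit false

noncomputable section

namespace Fermat.Agent.S24

open UpperHalfPlane
open scoped MatrixGroups Manifold

namespace HasUExp

variable {N : ℕ} {f : ℍ → ℂ} {c : LaurentSeries ℂ}

/-- From a power-series expansion of `f * q` in `q` to the expansion of `f`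
(the shape of `jAn_hasSum`). -/
theorem of_hasSum_mul_q {a : ℕ → ℂ}
    (h : ∀ τ : ℍ, HasSum (fun n : ℕ => a n * Function.Periodic.qParam 1 (τ : ℂ) ^ n)
      (f τ * Function.Periodic.qParam 1 (τ : ℂ))) :
    HasUExp 1 f (HahnSeries.single (-1 : ℤ) (1 : ℂ) *
      HahnSeries.ofPowerSeries ℤ ℂ (PowerSeries.mk a)) := by
  intro τ
  have hu : uPar 1 τ = Function.Periodic.qParam 1 (τ : ℂ) := by simp [uPar]
  rw [hu]
  have hq0 : Function.Periodic.qParam 1 (τ : ℂ) ≠ 0 := Function.Periodic.qParam_ne_zero _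
  have hc : ∀ m : ℤ, (HahnSeries.single (-1 : ℤ) (1 : ℂ) *
      HahnSeries.ofPowerSeries ℤ ℂ (PowerSeries.mk a)).coeff m
        = if m + 1 < 0 then 0 else a (m + 1).natAbs := by
    intro m
    rw [HahnSeries.coeff_single_mul, one_mul, sub_neg_eq_add, PowerSeries.coeff_coe,
      PowerSeries.coeff_mk]
  have hφ : Function.Injective (fun n : ℕ => (n : ℤ) - 1) := by
    intro n m hnm
    simpa using hnm
  have h1 := (h τ).mul_right (Function.Periodic.qParam 1 (τ : ℂ))⁻¹
  rw [mul_assoc, mul_inv_cancel₀ hq0, mul_one] at h1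
  refine (hφ.hasSum_iff ?_).mp ?_
  · intro m hm
    rw [hc, if_pos, zero_mul]
    by_contra hneg
    apply hm
    refine ⟨(m + 1).natAbs, ?_⟩
    simp only
    omega
  · have hfun : ((fun m : ℤ => (HahnSeries.single (-1 : ℤ) (1 : ℂ) *
        HahnSeries.ofPowerSeries ℤ ℂ (PowerSeries.mk a)).coeff m *
          Function.Periodic.qParam 1 (τ : ℂ) ^ m) ∘ fun n : ℕ => (n : ℤ) - 1)
        = fun i : ℕ => a i * Function.Periodic.qParam 1 (τ : ℂ) ^ i *
          (Function.Periodic.qParam 1 (τ : ℂ))⁻¹ := by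
      funext n
      show (HahnSeries.single (-1 : ℤ) (1 : ℂ) *
        HahnSeries.ofPowerSeries ℤ ℂ (PowerSeries.mk a)).coeff ((n : ℤ) - 1) *
          Function.Periodic.qParam 1 (τ : ℂ) ^ ((n : ℤ) - 1) = _
      rw [hc, if_neg (by omega), zpow_sub₀ hq0, zpow_natCast, zpow_one, div_eq_mul_inv, mul_assoc]
      congr 2
      omega
    rw [hfun]
    exact h1

/-- Translation `τ ↦ τ + t`, `t ∈ ℤ`, twists the expansion by the root of unity
`exp (2 π i t / N)`. -/
theorem comp_translate [NeZero N] (hf : HasUExp N f c) (t : ℤ) (g : ℍ → ℂ)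
    (hg : ∀ τ τ' : ℍ, (τ' : ℂ) = (τ : ℂ) + t → g τ = f τ') :
    HasUExp N g (twist (Complex.exp (2 * Real.pi * Complex.I * t / N)) c) := by
  intro τ
  have hcoe : ((((t : ℝ) +ᵥ τ : ℍ)) : ℂ) = (τ : ℂ) + t := by
    rw [UpperHalfPlane.coe_vadd]
    push_cast
    ring
  rw [hg τ ((t : ℝ) +ᵥ τ) hcoe]
  have h1 := hf ((t : ℝ) +ᵥ τ)
  have hu : uPar N ((t : ℝ) +ᵥ τ)
      = uPar N τ * Complex.exp (2 * Real.pi * Complex.I * t / N) := by
    unfold uPar Function.Periodic.qParam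
    rw [hcoe, ← Complex.exp_add]
    congr 1
    push_cast
    ring
  have hfun : (fun n : ℤ => (twist (Complex.exp (2 * Real.pi * Complex.I * t / N)) c).coeff n
      * uPar N τ ^ n) = fun n : ℤ => c.coeff n * uPar N ((t : ℝ) +ᵥ τ) ^ n := by
    funext n
    rw [twist_coeff, hu, mul_zpow]
    ring
  rw [hfun]
  exact h1

/-- The Laurent series `∑ cₙ zⁿ X^(M n)` (helper for `comp_affine`). -/
def affineSeries (M : ℕ) (hM : 0 < M) (z : ℂ) (c : LaurentSeries ℂ) : LaurentSeries ℂ :=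
  HahnSeries.ofSuppBddBelow
    (fun m : ℤ => if (M : ℤ) ∣ m then z ^ (m / M) * c.coeff (m / M) else 0) (by
      refine ⟨(M : ℤ) * c.order, fun m hm => ?_⟩
      rw [Function.mem_support] at hm
      by_cases hdiv : (M : ℤ) ∣ m
      · rw [if_pos hdiv] at hm
        have hc : c.coeff (m / M) ≠ 0 := fun h0 => hm (by rw [h0, mul_zero])
        have hle : c.order ≤ m / M := HahnSeries.order_le_of_coeff_ne_zero hc
        obtain ⟨k, rfl⟩ := hdiv
        have hM' : (M : ℤ) ≠ 0 := by exact_mod_cast hM.ne'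
        rw [Int.mul_ediv_cancel_left _ hM'] at hle
        exact mul_le_mul_of_nonneg_left hle (by positivity)
      · rw [if_neg hdiv] at hm
        exact absurd rfl hm)

theorem affineSeries_coeff (M : ℕ) (hM : 0 < M) (z : ℂ) (c : LaurentSeries ℂ) (m : ℤ) :
    (affineSeries M hM z c).coeff m
      = if (M : ℤ) ∣ m then z ^ (m / M) * c.coeff (m / M) else 0 := rfl

theorem affineSeries_coeff_mul (M : ℕ) (hM : 0 < M) (z : ℂ) (c : LaurentSeries ℂ) (n : ℤ) :
    (affineSeries M hM z c).coeff ((M : ℤ) * n) = z ^ n * c.coeff n := by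
  have hM' : (M : ℤ) ≠ 0 := by exact_mod_cast hM.ne'
  rw [affineSeries_coeff, if_pos (dvd_mul_right _ _), Int.mul_ediv_cancel_left _ hM']

/-- Substitution `τ ↦ (a τ + b) / d` in a `q`-expansion (`a, d > 0`, `d ∣ N`):
`∑ cₙ qⁿ ↦ ∑ cₙ exp (2 π i b n / d) u ^ (n * (N / d * a))`. -/
theorem comp_affine [NeZero N] (hf : HasUExp 1 f c) (a d : ℕ) (b : ℤ) (ha : 0 < a) (hd : 0 < d)
    (hdN : d ∣ N) (g : ℍ → ℂ)
    (hg : ∀ τ τ' : ℍ, (τ' : ℂ) = ((a : ℂ) * τ + b) / d → g τ = f τ') :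
    ∃ c' : LaurentSeries ℂ, HasUExp N g c' ∧
      (∀ n : ℤ, c'.coeff (((N / d * a : ℕ) : ℤ) * n)
        = Complex.exp (2 * Real.pi * Complex.I * b / d) ^ n * c.coeff n) ∧
      (∀ m : ℤ, ¬ (((N / d * a : ℕ) : ℤ) ∣ m) → c'.coeff m = 0) := by
  have hN : 0 < N := Nat.pos_of_ne_zero (NeZero.ne N)
  have hNd : 0 < N / d := Nat.div_pos (Nat.le_of_dvd hN hdN) hd
  have hM : 0 < N / d * a := Nat.mul_pos hNd ha
  have hM' : ((N / d * a : ℕ) : ℤ) ≠ 0 := by exact_mod_cast hM.ne'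
  refine ⟨affineSeries (N / d * a) hM (Complex.exp (2 * Real.pi * Complex.I * b / d)) c, ?_,
    fun n => affineSeries_coeff_mul _ hM _ c n, fun m hm => ?_⟩
  swap
  · rw [affineSeries_coeff, if_neg hm]
  intro τ
  -- the point `τ' = (a τ + b) / d`
  have him : 0 < (((a : ℂ) * τ + b) / d).im := by
    have h1 : (((a : ℂ) * τ + b) / d).im = (a : ℝ) * τ.im / d := by
      have : ((a : ℂ) * τ + b) / d = (((a : ℝ) * (τ : ℂ).re + b) / d : ℝ)
          + (((a : ℝ) * (τ : ℂ).im / d : ℝ) : ℂ) * Complex.I := by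
        apply Complex.ext <;> simp [Complex.div_natCast_re, Complex.div_natCast_im]
      rw [this]
      simp
    rw [h1]
    have := τ.im_pos
    positivity
  let τ' : ℍ := ⟨((a : ℂ) * τ + b) / d, him⟩
  have hτ' : (τ' : ℂ) = ((a : ℂ) * τ + b) / d := rfl
  rw [hg τ τ' hτ']
  have h1 := hf τ'
  have hd0 : (d : ℂ) ≠ 0 := by exact_mod_cast hd.ne'
  have hN0 : (N : ℂ) ≠ 0 := by exact_mod_cast hN.ne'
  have hu : uPar 1 τ' = Complex.exp (2 * Real.pi * Complex.I * b / d)
      * uPar N τ ^ (N / d * a) := by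
    unfold uPar Function.Periodic.qParam
    rw [hτ', ← Complex.exp_nat_mul, ← Complex.exp_add]
    congr 1
    rw [Nat.cast_mul, Nat.cast_div hdN hd0]
    push_cast
    field_simp
    ring
  have hφ : Function.Injective (fun n : ℤ => ((N / d * a : ℕ) : ℤ) * n) := by
    intro n m hnm
    exact mul_left_cancel₀ hM' hnm
  refine (hφ.hasSum_iff ?_).mp ?_
  · intro m hm
    rw [affineSeries_coeff, if_neg, zero_mul]
    rintro ⟨k, rfl⟩
    exact hm ⟨k, rfl⟩
  · have hfun : ((fun m : ℤ =>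
        (affineSeries (N / d * a) hM (Complex.exp (2 * Real.pi * Complex.I * b / d)) c).coeff m
          * uPar N τ ^ m) ∘ fun n : ℤ => ((N / d * a : ℕ) : ℤ) * n)
        = fun n : ℤ => c.coeff n * uPar 1 τ' ^ n := by
      funext n
      show (affineSeries (N / d * a) hM (Complex.exp (2 * Real.pi * Complex.I * b / d)) c).coeff
        (((N / d * a : ℕ) : ℤ) * n) * uPar N τ ^ (((N / d * a : ℕ) : ℤ) * n) = _
      rw [affineSeries_coeff_mul, hu, mul_zpow, zpow_mul, zpow_natCast]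
      ring
    rw [hfun]
    exact h1

end HasUExp

end Fermat.Agent.S24
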