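import Fermat.Agent.S24.Closure.JA
import Fermat.Agent.S24.H27_JAn

/-!
# S24 construction, layer 1b (WP CLO-Atil): the ring `Atil N` with its `SL(2, ℤ)`-action

Every `sorry` in this file belongs to WP CLO-Atil (fill in place, keep all signatures).
-/

set_option autoImplicit false

noncomputable section

namespace Fermat.Agent.S24

open ModularCurve UpperHalfPlane
open scoped MatrixGroups Manifold

/-! ## 3. The ring `Atil N` -/

/-- The generators: `j ∘ A`, `A` an integer matrix with `0 < det A ∣ N`. -/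
def genJ (N : ℕ) : Set Hol :=
  {f | ∃ A : Matrix (Fin 2) (Fin 2) ℤ, 0 < A.det ∧ A.det ∣ (N : ℤ) ∧ f = JA A}

/-- The `K`-algebra generated by the `j ∘ A`. -/
def Atil (N : ℕ) : Subalgebra Kbar Hol := Algebra.adjoin Kbar (genJ N)

theorem JA_mem_Atil (N : ℕ) (A : Matrix (Fin 2) (Fin 2) ℤ) (hA : 0 < A.det)
    (hN : A.det ∣ (N : ℤ)) : JA A ∈ Atil N :=
  Algebra.subset_adjoin ⟨A, hA, hN, rfl⟩

theorem smul_mem_Atil (N : ℕ) (γ : SL(2, ℤ)) {f : Hol} (hf : f ∈ Atil N) : γ • f ∈ Atil N := by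
  unfold Atil at hf ⊢
  induction hf using Algebra.adjoin_induction with
  | mem x hx =>
    obtain ⟨A, hA, hN, rfl⟩ := hx
    rw [smul_JA γ A hA]
    refine Algebra.subset_adjoin ⟨_, ?_, ?_, rfl⟩
    · rw [Matrix.det_mul, (γ⁻¹ : SL(2, ℤ)).2, mul_one]; exact hA
    · rw [Matrix.det_mul, (γ⁻¹ : SL(2, ℤ)).2, mul_one]; exact hN
  | algebraMap c =>
    have h : γ • (algebraMap Kbar Hol c) = algebraMap Kbar Hol c :=
      Subtype.ext (funext fun _ => rfl)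
    rw [h]
    exact Subalgebra.algebraMap_mem _ c
  | add x y _ _ hx hy =>
    rw [smul_add]
    exact Subalgebra.add_mem _ hx hy
  | mul x y _ _ hx hy =>
    rw [smul_mul']
    exact Subalgebra.mul_mem _ hx hy

/-- `SL(2, ℤ)` acts on `Atil N` (direct `SMul` instance, found first by instance search). -/
instance (priority := high) smulAtil (N : ℕ) : SMul SL(2, ℤ) (Atil N) :=
  ⟨fun γ f => ⟨γ • (f : Hol), smul_mem_Atil N γ f.2⟩⟩

/-- `SL(2, ℤ)` acts on `Atil N`. -/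
instance mulSemiringActionAtil (N : ℕ) : MulSemiringAction SL(2, ℤ) (Atil N) where
  toSMul := smulAtil N
  one_smul _ := Subtype.ext (one_smul _ _)
  mul_smul _ _ _ := Subtype.ext (mul_smul _ _ _)
  smul_zero _ := Subtype.ext (smul_zero _)
  smul_add _ _ _ := Subtype.ext (smul_add _ _ _)
  smul_one _ := Subtype.ext (smul_one _)
  smul_mul _ _ _ := Subtype.ext (smul_mul' _ _ _)

@[simp] theorem coe_smul_Atil (N : ℕ) (γ : SL(2, ℤ)) (f : Atil N) :
    ((γ • f : Atil N) : Hol) = γ • (f : Hol) := rfl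

instance smulCommClass_SL_Kbar_Atil (N : ℕ) : SMulCommClass SL(2, ℤ) Kbar (Atil N) :=
  ⟨fun γ c f => Subtype.ext (smul_comm γ c (f : Hol))⟩

instance isDomain_Atil (N : ℕ) : IsDomain (Atil N) := inferInstance

/-- `j` as an element of `Atil N`. -/
def jA (N : ℕ) : Atil N := ⟨JA 1, JA_mem_Atil N 1 (by simp) (by simp)⟩

theorem jA_apply (N : ℕ) (τ : ℍ) : ((jA N : Atil N) : ℍ → ℂ) τ = jAn τ := JA_one_apply τ

/-- `j (d τ)` as an element of `Atil N`, for `d ∣ N` (junk `JA` value otherwise). -/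
def jdA (N : ℕ) (d : ℕ) : Atil N :=
  if h : 0 < d ∧ d ∣ N then
    ⟨JA !![(d : ℤ), 0; 0, 1], JA_mem_Atil N _ (by simpa [Matrix.det_fin_two] using h.1)
      (by simpa [Matrix.det_fin_two] using Int.natCast_dvd_natCast.mpr h.2)⟩
  else 0

theorem jdA_coe (N : ℕ) (d : ℕ) (hd : 0 < d) (hdN : d ∣ N) :
    ((jdA N d : Atil N) : Hol) = JA !![(d : ℤ), 0; 0, 1] := by
  rw [jdA, dif_pos ⟨hd, hdN⟩]

theorem jdA_one (N : ℕ) : jdA N 1 = jA N := by
  apply Subtype.ext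
  rw [jdA_coe N 1 one_pos (one_dvd N)]
  show JA !![((1 : ℕ) : ℤ), 0; 0, 1] = JA 1
  congr 1
  rw [Nat.cast_one, Matrix.one_fin_two]

/-- `SL(2, ℤ)` fixes `j`. -/
theorem smul_jA (N : ℕ) (γ : SL(2, ℤ)) : γ • jA N = jA N := by
  apply Subtype.ext
  show γ • JA 1 = JA 1
  have h1 : 0 < (1 : Matrix (Fin 2) (Fin 2) ℤ).det := by rw [Matrix.det_one]; exact one_pos
  rw [smul_JA γ 1 h1, one_mul]
  have := JA_mul_left γ⁻¹ 1 h1
  rwa [mul_one] at this

/-- If `A γ⁻¹ = γ' A` with `γ' ∈ SL(2, ℤ)` then `γ` fixes `j ∘ A`. -/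
theorem smul_JA_eq_of_mul_eq (γ γ' : SL(2, ℤ)) (A : Matrix (Fin 2) (Fin 2) ℤ) (hA : 0 < A.det)
    (h : A * (γ⁻¹ : SL(2, ℤ)).1 = γ'.1 * A) : γ • JA A = JA A := by
  rw [smul_JA γ A hA, h, JA_mul_left γ' A hA]

/-- Conjugating an element of `Γ₀(N)` by `diag(d, 1)`, `d ∣ N`. -/
theorem exists_diag_mul_eq (d : ℤ) (δ : SL(2, ℤ)) (c : ℤ) (hc : δ.1 1 0 = d * c) :
    ∃ γ' : SL(2, ℤ), (!![d, 0; 0, 1] : Matrix (Fin 2) (Fin 2) ℤ) * δ.1
      = γ'.1 * !![d, 0; 0, 1] := by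
  have hdet : δ.1 0 0 * δ.1 1 1 - δ.1 0 1 * δ.1 1 0 = 1 := by
    have := δ.2
    rwa [Matrix.det_fin_two] at this
  have key : ∀ x y w : ℤ, (!![d, 0; 0, 1] : Matrix (Fin 2) (Fin 2) ℤ) * !![x, y; d * c, w]
      = !![x, d * y; c, w] * !![d, 0; 0, 1] := by
    intro x y w
    ext i j
    fin_cases i <;> fin_cases j <;> simp [Matrix.mul_apply, Fin.sum_univ_two] <;> ring
  have e : δ.1 = !![δ.1 0 0, δ.1 0 1; d * c, δ.1 1 1] := by
    conv_lhs => rw [Matrix.eta_fin_two δ.1, hc]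
  refine ⟨⟨!![δ.1 0 0, d * δ.1 0 1; c, δ.1 1 1], ?_⟩, ?_⟩
  · rw [Matrix.det_fin_two_of]
    rw [hc] at hdet
    linear_combination hdet
  · show (!![d, 0; 0, 1] : Matrix (Fin 2) (Fin 2) ℤ) * δ.1
      = !![δ.1 0 0, d * δ.1 0 1; c, δ.1 1 1] * !![d, 0; 0, 1]
    conv_lhs => rw [e]
    exact key _ _ _

/-- Conjugating an element congruent to `1` modulo `det A` by `A`. -/
theorem exists_mul_eq_of_congr (a b c d m00 m01 m10 m11 : ℤ) :
    (!![a, b; c, d] : Matrix (Fin 2) (Fin 2) ℤ)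
        * !![1 + (a * d - b * c) * m00, (a * d - b * c) * m01;
            (a * d - b * c) * m10, 1 + (a * d - b * c) * m11]
      = !![1 + ((a * m00 + b * m10) * d - (a * m01 + b * m11) * c),
            -(a * m00 + b * m10) * b + (a * m01 + b * m11) * a;
            (c * m00 + d * m10) * d - (c * m01 + d * m11) * c,
            1 + (-(c * m00 + d * m10) * b + (c * m01 + d * m11) * a)]
        * !![a, b; c, d] := by
  ext i j
  fin_cases i <;> fin_cases j <;> simp [Matrix.mul_apply, Fin.sum_univ_two] <;> ring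

/-- `Γ₀(N)` fixes `j (d τ)` for `d ∣ N`. -/
theorem smul_jdA_of_mem_Gamma0 (N : ℕ) (d : ℕ) (hd : 0 < d) (hdN : d ∣ N) (γ : SL(2, ℤ))
    (hγ : γ ∈ CongruenceSubgroup.Gamma0 N) : γ • jdA N d = jdA N d := by
  apply Subtype.ext
  rw [coe_smul_Atil, jdA_coe N d hd hdN]
  have hdet : 0 < (!![(d : ℤ), 0; 0, 1] : Matrix (Fin 2) (Fin 2) ℤ).det := by
    simpa [Matrix.det_fin_two] using hd
  have hγ' : γ⁻¹ ∈ CongruenceSubgroup.Gamma0 N := inv_mem hγ
  rw [CongruenceSubgroup.Gamma0_mem] at hγ'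
  have hN : (N : ℤ) ∣ (γ⁻¹ : SL(2, ℤ)).1 1 0 := (ZMod.intCast_zmod_eq_zero_iff_dvd _ N).mp hγ'
  obtain ⟨c, hc⟩ : (d : ℤ) ∣ (γ⁻¹ : SL(2, ℤ)).1 1 0 :=
    dvd_trans (Int.natCast_dvd_natCast.mpr hdN) hN
  obtain ⟨γ', hγ'⟩ := exists_diag_mul_eq (d : ℤ) γ⁻¹ c hc
  exact smul_JA_eq_of_mul_eq γ γ' _ hdet hγ'

/-- `Γ(N)` acts trivially on `Atil N`
(for `γ ∈ Γ(N)` and `det A ∣ N`: `A γ⁻¹ = γ' A` with `γ' ∈ SL(2, ℤ)`). -/
theorem smul_eq_of_mem_Gamma (N : ℕ) [NeZero N] (γ : SL(2, ℤ))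
    (hγ : γ ∈ CongruenceSubgroup.Gamma N) (f : Atil N) : γ • f = f := by
  have key : ∀ (A : Matrix (Fin 2) (Fin 2) ℤ), 0 < A.det → A.det ∣ (N : ℤ) →
      γ • JA A = JA A := by
    intro A hA hN
    have hγ' : γ⁻¹ ∈ CongruenceSubgroup.Gamma N := inv_mem hγ
    rw [CongruenceSubgroup.Gamma_mem] at hγ'
    obtain ⟨h00, h01, h10, h11⟩ := hγ'
    have hdvd : ∀ x : ℤ, ((x : ZMod N) = 0) → A.det ∣ x := fun x hx =>
      dvd_trans hN ((ZMod.intCast_zmod_eq_zero_iff_dvd _ N).mp hx)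
    obtain ⟨m00, hm00⟩ : A.det ∣ (γ⁻¹ : SL(2, ℤ)).1 0 0 - 1 :=
      hdvd _ (by push_cast; rw [h00]; ring)
    obtain ⟨m01, hm01⟩ : A.det ∣ (γ⁻¹ : SL(2, ℤ)).1 0 1 := hdvd _ h01
    obtain ⟨m10, hm10⟩ : A.det ∣ (γ⁻¹ : SL(2, ℤ)).1 1 0 := hdvd _ h10
    obtain ⟨m11, hm11⟩ : A.det ∣ (γ⁻¹ : SL(2, ℤ)).1 1 1 - 1 :=
      hdvd _ (by push_cast; rw [h11]; ring)
    have hdetA : A.det = A 0 0 * A 1 1 - A 0 1 * A 1 0 := Matrix.det_fin_two A
    have hA0 : A.det ≠ 0 := hA.ne'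
    have eg : (γ⁻¹ : SL(2, ℤ)).1 = !![1 + (A 0 0 * A 1 1 - A 0 1 * A 1 0) * m00,
        (A 0 0 * A 1 1 - A 0 1 * A 1 0) * m01;
        (A 0 0 * A 1 1 - A 0 1 * A 1 0) * m10,
        1 + (A 0 0 * A 1 1 - A 0 1 * A 1 0) * m11] := by
      rw [← hdetA]
      ext i j
      fin_cases i <;> fin_cases j
      · show (γ⁻¹ : SL(2, ℤ)).1 0 0 = 1 + A.det * m00
        linear_combination hm00
      · show (γ⁻¹ : SL(2, ℤ)).1 0 1 = A.det * m01
        exact hm01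
      · show (γ⁻¹ : SL(2, ℤ)).1 1 0 = A.det * m10
        exact hm10
      · show (γ⁻¹ : SL(2, ℤ)).1 1 1 = 1 + A.det * m11
        linear_combination hm11
    have hmul := exists_mul_eq_of_congr (A 0 0) (A 0 1) (A 1 0) (A 1 1) m00 m01 m10 m11
    rw [← eg, ← Matrix.eta_fin_two A] at hmul
    have hdet' : (!![1 + ((A 0 0 * m00 + A 0 1 * m10) * A 1 1
          - (A 0 0 * m01 + A 0 1 * m11) * A 1 0),
        -(A 0 0 * m00 + A 0 1 * m10) * A 0 1 + (A 0 0 * m01 + A 0 1 * m11) * A 0 0;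
        (A 1 0 * m00 + A 1 1 * m10) * A 1 1 - (A 1 0 * m01 + A 1 1 * m11) * A 1 0,
        1 + (-(A 1 0 * m00 + A 1 1 * m10) * A 0 1 + (A 1 0 * m01 + A 1 1 * m11) * A 0 0)] :
          Matrix (Fin 2) (Fin 2) ℤ).det = 1 := by
      have h1 := congrArg Matrix.det hmul
      rw [Matrix.det_mul, Matrix.det_mul, (γ⁻¹ : SL(2, ℤ)).2, mul_one] at h1
      exact (mul_right_cancel₀ hA0 (by rw [one_mul]; exact h1)).symm
    exact smul_JA_eq_of_mul_eq γ ⟨_, hdet'⟩ A hA hmul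
  apply Subtype.ext
  rw [coe_smul_Atil]
  obtain ⟨f, hf⟩ := f
  show γ • f = f
  unfold Atil at hf
  induction hf using Algebra.adjoin_induction with
  | mem x hx =>
    obtain ⟨A, hA, hN, rfl⟩ := hx
    exact key A hA hN
  | algebraMap c => exact Subtype.ext (funext fun _ => rfl)
  | add x y _ _ hx hy => rw [smul_add, hx, hy]
  | mul x y _ _ hx hy => rw [smul_mul', hx, hy]

/-- `j` is transcendental over `K` (use `jAn_surjective`). -/
theorem jA_transcendental (N : ℕ) : Transcendental Kbar (jA N) := by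
  intro halg
  obtain ⟨P, hP0, hP⟩ := halg
  -- evaluate at every `τ`
  have h2 : ∀ (Q : Polynomial Kbar) (τ : ℍ),
      ((Polynomial.aeval (jA N) Q : Atil N) : ℍ → ℂ) τ = (Q.map iotaC).eval (jAn τ) := by
    intro Q τ
    induction Q using Polynomial.induction_on' with
    | add p q hp hq =>
      rw [map_add, Polynomial.map_add, Polynomial.eval_add, ← hp, ← hq]
      rfl
    | monomial n a =>
      rw [Polynomial.aeval_monomial, Polynomial.map_monomial, Polynomial.eval_monomial]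
      show iotaC a * ((jA N : Atil N) : ℍ → ℂ) τ ^ n = _
      rw [jA_apply]
  have hroot : ∀ τ : ℍ, (P.map iotaC).eval (jAn τ) = 0 := by
    intro τ
    rw [← h2, hP]
    rfl
  have hPne : P.map iotaC ≠ 0 := by
    rwa [Ne, Polynomial.map_eq_zero_iff iotaC_injective]
  have hfin : ((P.map iotaC).rootSet ℂ).Finite := Polynomial.rootSet_finite _ ℂ
  have hall : (Set.univ : Set ℂ) ⊆ (P.map iotaC).rootSet ℂ := by
    intro a _
    obtain ⟨τ, rfl⟩ := jAn_surjective a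
    rw [Polynomial.mem_rootSet]
    exact ⟨hPne, by simpa using hroot τ⟩
  exact Set.infinite_univ (hfin.subset hall)

end Fermat.Agent.S24
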