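import Fermat.Agent.S24.An.Hol
import Fermat.Prelude.Def_ModularCurve_X0
import Fermat.Prelude.Def_ModularCurve_LaurentCoeff

/-!
# S24 construction, layer 1c (WP CLO-UExp): expansions at `∞` in `u = exp (2 π i τ / N)`

Pure analysis over `ℂ`, independent of `j`.
`HasUExp N f c` : the function `f : ℍ → ℂ` is, on all of `ℍ`, the sum of the Laurent series `c`
(finitely many negative terms) in the parameter `u = exp (2 π i τ / N)`.

WP CLO-UExp: all statements proved (helper95); signatures as in the skeleton.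
-/

set_option autoImplicit false

noncomputable section

namespace Fermat.Agent.S24

open UpperHalfPlane
open scoped MatrixGroups Manifold

/-- The local parameter `u = exp (2 π i τ / N)` at the cusp `∞`. -/
def uPar (N : ℕ) (τ : ℍ) : ℂ := Function.Periodic.qParam (N : ℝ) (τ : ℂ)

theorem uPar_ne_zero (N : ℕ) (τ : ℍ) : uPar N τ ≠ 0 := Function.Periodic.qParam_ne_zero _

theorem norm_uPar_lt_one (N : ℕ) [NeZero N] (τ : ℍ) : ‖uPar N τ‖ < 1 :=
  Function.Periodic.norm_qParam_lt_one (Nat.cast_pos.mpr (NeZero.pos N)) τ.im_pos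

theorem uPar_pow (N : ℕ) [NeZero N] (τ : ℍ) : uPar N τ ^ N = uPar 1 τ := by
  have hN : (N : ℂ) ≠ 0 := Nat.cast_ne_zero.mpr (NeZero.ne N)
  simp only [uPar, Function.Periodic.qParam]
  rw [← Complex.exp_nat_mul]
  congr 1
  push_cast
  field_simp

/-- Every point of the punctured unit disc is a value of `u`. -/
theorem exists_uPar_eq (N : ℕ) [NeZero N] {z : ℂ} (hz0 : z ≠ 0) (hz1 : ‖z‖ < 1) :
    ∃ τ : ℍ, uPar N τ = z := by
  have hN : (0 : ℝ) < N := Nat.cast_pos.mpr (NeZero.pos N)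
  have him : 0 < (Function.Periodic.invQParam (N : ℝ) z).im := by
    rw [Function.Periodic.im_invQParam]
    have h1 : Real.log ‖z‖ < 0 := Real.log_neg (norm_pos_iff.mpr hz0) hz1
    have h2 : -(N : ℝ) / (2 * Real.pi) < 0 := by
      apply div_neg_of_neg_of_pos (by linarith) (by positivity)
    exact mul_pos_of_neg_of_neg h2 h1
  exact ⟨⟨Function.Periodic.invQParam (N : ℝ) z, him⟩,
    Function.Periodic.qParam_right_inv hN.ne' hz0⟩

/-- `c` is the expansion of `f` at `∞` in the parameter `u = exp (2 π i τ / N)`. -/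
def HasUExp (N : ℕ) (f : ℍ → ℂ) (c : LaurentSeries ℂ) : Prop :=
  ∀ τ : ℍ, HasSum (fun n : ℤ => c.coeff n * uPar N τ ^ n) (f τ)

/-- Twisting a Laurent series: `∑ cₙ Xⁿ ↦ ∑ cₙ zⁿ Xⁿ`. -/
def twist {F : Type*} [Field F] (z : F) (c : LaurentSeries F) : LaurentSeries F :=
  HahnSeries.ofSuppBddBelow (fun n : ℤ => z ^ n * c.coeff n) (by
    refine ⟨c.order, fun n hn => ?_⟩
    by_contra h
    exact hn (by
      show z ^ n * c.coeff n = 0
      rw [HahnSeries.coeff_eq_zero_of_lt_order (not_le.mp h), mul_zero]))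

@[simp] theorem twist_coeff {F : Type*} [Field F] (z : F) (c : LaurentSeries F) (n : ℤ) :
    (twist z c).coeff n = z ^ n * c.coeff n := rfl

theorem coeffMap_twist {F F' : Type*} [Field F] [Field F'] (φ : F →+* F') (z : F)
    (c : LaurentSeries F) :
    ModularCurve.coeffMap φ (twist z c) = twist (φ z) (ModularCurve.coeffMap φ c) := by
  ext n
  simp [map_zpow₀]

namespace HasUExp

variable {N : ℕ} {f g : ℍ → ℂ} {c c' : LaurentSeries ℂ}

theorem congr (h : HasUExp N f c) (hfg : ∀ τ, f τ = g τ) : HasUExp N g c :=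
  fun τ => hfg τ ▸ h τ

theorem const (N : ℕ) (a : ℂ) : HasUExp N (fun _ => a) (HahnSeries.C a) := by
  intro τ
  have h := hasSum_single (f := fun n : ℤ => (HahnSeries.C a).coeff n * uPar N τ ^ n) 0
    (fun n hn => by
      show (HahnSeries.C a).coeff n * uPar N τ ^ n = 0
      rw [HahnSeries.C_apply, HahnSeries.coeff_single_of_ne hn, zero_mul])
  simpa [HahnSeries.C_apply] using h

theorem zero (N : ℕ) : HasUExp N (fun _ => 0) 0 := by
  intro τ
  simp

theorem one (N : ℕ) : HasUExp N (fun _ => 1) 1 := by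
  have h := const N 1
  rwa [map_one] at h

theorem add (hf : HasUExp N f c) (hg : HasUExp N g c') :
    HasUExp N (fun τ => f τ + g τ) (c + c') := by
  intro τ
  have h := (hf τ).add (hg τ)
  simpa [add_mul] using h

theorem neg (hf : HasUExp N f c) : HasUExp N (fun τ => - f τ) (- c) := by
  intro τ
  have h := (hf τ).neg
  simpa [neg_mul] using h

theorem sub (hf : HasUExp N f c) (hg : HasUExp N g c') :
    HasUExp N (fun τ => f τ - g τ) (c - c') := by
  intro τ
  have h := (hf τ).sub (hg τ)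
  simpa [sub_mul] using h

/-- Cauchy product (absolute convergence inside the unit disc). -/
theorem mul [NeZero N] (hf : HasUExp N f c) (hg : HasUExp N g c') :
    HasUExp N (fun τ => f τ * g τ) (c * c') := by
  intro τ
  have hu0 : uPar N τ ≠ 0 := uPar_ne_zero N τ
  have hA := hf τ
  have hB := hg τ
  have hAn : Summable fun n : ℤ => ‖c.coeff n * uPar N τ ^ n‖ := hA.summable.norm
  have hBn : Summable fun n : ℤ => ‖c'.coeff n * uPar N τ ^ n‖ := hB.summable.norm
  have hS : Summable (fun x : ℤ × ℤ => (c.coeff x.1 * uPar N τ ^ x.1) * (c'.coeff x.2 * uPar N τ ^ x.2)) :=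
    summable_mul_of_summable_norm (f := fun n : ℤ => c.coeff n * uPar N τ ^ n)
      (g := fun n : ℤ => c'.coeff n * uPar N τ ^ n) hAn hBn
  have hprod : HasSum (fun x : ℤ × ℤ => (c.coeff x.1 * uPar N τ ^ x.1) * (c'.coeff x.2 * uPar N τ ^ x.2))
      (f τ * g τ) := HasSum.mul (f := fun n : ℤ => c.coeff n * uPar N τ ^ n)
      (g := fun n : ℤ => c'.coeff n * uPar N τ ^ n) hA hB hS
  -- reindex by `(n, j) ↦ (n - j, j)`
  let e : ℤ × ℤ ≃ ℤ × ℤ :=
    { toFun := fun x => (x.1 - x.2, x.2)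
      invFun := fun x => (x.1 + x.2, x.2)
      left_inv := fun x => by simp
      right_inv := fun x => by simp }
  have hprod' : HasSum (fun x : ℤ × ℤ =>
      (c.coeff (x.1 - x.2) * uPar N τ ^ (x.1 - x.2)) * (c'.coeff x.2 * uPar N τ ^ x.2))
      (f τ * g τ) :=
    (Equiv.hasSum_iff (f := fun x : ℤ × ℤ =>
      (c.coeff x.1 * uPar N τ ^ x.1) * (c'.coeff x.2 * uPar N τ ^ x.2)) e).mpr hprod
  refine HasSum.prod_fiberwise (f := fun x : ℤ × ℤ =>
      (c.coeff (x.1 - x.2) * uPar N τ ^ (x.1 - x.2)) * (c'.coeff x.2 * uPar N τ ^ x.2))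
      hprod' fun n => ?_
  -- the inner sum is finite
  set AD := Finset.antidiagonal c.isPWO_support c'.isPWO_support n with hAD
  have hfin : ∀ j ∉ AD.image Prod.snd,
      (c.coeff (n - j) * uPar N τ ^ (n - j)) * (c'.coeff j * uPar N τ ^ j) = 0 := by
    intro j hj
    by_contra hne
    apply hj
    rw [Finset.mem_image]
    refine ⟨(n - j, j), ?_, rfl⟩
    rw [hAD, Finset.mem_antidiagonal]
    refine ⟨?_, ?_, by simp⟩
    · intro h0
      apply hne
      have : c.coeff (n - j) = 0 := h0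
      rw [this, zero_mul, zero_mul]
    · intro h0
      apply hne
      have : c'.coeff j = 0 := h0
      rw [this, zero_mul, mul_zero]
  have hsum : HasSum
      (fun j : ℤ => (c.coeff (n - j) * uPar N τ ^ (n - j)) * (c'.coeff j * uPar N τ ^ j))
      (∑ j ∈ AD.image Prod.snd,
        (c.coeff (n - j) * uPar N τ ^ (n - j)) * (c'.coeff j * uPar N τ ^ j)) :=
    hasSum_sum_of_ne_finset_zero hfin
  have hval : (c * c').coeff n * uPar N τ ^ n
      = ∑ j ∈ AD.image Prod.snd,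
          (c.coeff (n - j) * uPar N τ ^ (n - j)) * (c'.coeff j * uPar N τ ^ j) := by
    rw [HahnSeries.coeff_mul, Finset.sum_mul, Finset.sum_image]
    · refine Finset.sum_congr rfl fun ij hij => ?_
      rw [Finset.mem_antidiagonal] at hij
      have h1 : n - ij.2 = ij.1 := by rw [← hij.2.2]; ring
      rw [h1, ← hij.2.2, zpow_add₀ hu0]
      ring
    · intro x hx y hy hxy
      rw [Finset.mem_coe, Finset.mem_antidiagonal] at hx hy
      have h2 : x.2 = y.2 := hxy
      have h1 : x.1 = y.1 := by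
        have := hx.2.2.trans hy.2.2.symm
        rw [h2] at this
        exact add_right_cancel this
      exact Prod.ext h1 h2
  show HasSum (fun j : ℤ =>
    (c.coeff (n - j) * uPar N τ ^ (n - j)) * (c'.coeff j * uPar N τ ^ j)) _
  rw [hval]
  exact hsum

/-- Key estimate for the identity theorem: the lowest coefficient is bounded by a multiple of
`‖u‖`. -/
theorem h95_norm_coeff_order_le [NeZero N] (h : HasUExp N (fun _ => 0) c)
    (S : ℝ) (τ₀ : ℍ) (hτ₀ : uPar N τ₀ = (1 / 2 : ℂ))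
    (hS : HasSum (fun n : ℤ => ‖c.coeff n * uPar N τ₀ ^ n‖) S)
    (τ : ℍ) (hτ : ‖uPar N τ‖ ≤ 1 / 2) :
    ‖c.coeff c.order‖ ≤ S * (‖uPar N τ‖ * ((1 / 2 : ℝ) ^ (c.order + 1))⁻¹) := by
  classical
  set m := c.order with hm
  set u := uPar N τ with hu
  have hu0 : u ≠ 0 := uPar_ne_zero N τ
  have hupos : 0 < ‖u‖ := norm_pos_iff.mpr hu0
  have h0 := h τ
  have h1 : HasSum (Function.update (fun n : ℤ => c.coeff n * u ^ n) m 0)
      (0 - c.coeff m * u ^ m + 0) := h0.update m 0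
  have hbound : ∀ n : ℤ, ‖Function.update (fun n : ℤ => c.coeff n * u ^ n) m 0 n‖
      ≤ ‖c.coeff n * uPar N τ₀ ^ n‖ * (‖u‖ ^ (m + 1) * ((1 / 2 : ℝ) ^ (m + 1))⁻¹) := by
    intro n
    have hK : 0 ≤ ‖u‖ ^ (m + 1) * ((1 / 2 : ℝ) ^ (m + 1))⁻¹ := by positivity
    rcases lt_trichotomy n m with hlt | heq | hgt
    · rw [Function.update_of_ne hlt.ne, HahnSeries.coeff_eq_zero_of_lt_order hlt]
      simp only [zero_mul, norm_zero, le_refl]
    · rw [heq, Function.update_self, norm_zero]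
      exact mul_nonneg (norm_nonneg _) hK
    · rw [Function.update_of_ne hgt.ne']
      obtain ⟨k, hk⟩ : ∃ k : ℕ, n = m + 1 + k := ⟨(n - m - 1).toNat, by omega⟩
      rw [norm_mul, norm_mul, hτ₀, norm_zpow, norm_zpow]
      have hhalf : ‖(1 / 2 : ℂ)‖ = 1 / 2 := by
        rw [norm_div, norm_one, Complex.norm_ofNat]
      rw [hhalf, hk, zpow_add₀ hupos.ne', zpow_add₀ (by norm_num : (1 / 2 : ℝ) ≠ 0),
        zpow_natCast, zpow_natCast]
      have hpk : ‖u‖ ^ k ≤ (1 / 2 : ℝ) ^ k := pow_le_pow_left₀ (norm_nonneg _) hτ k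
      have hh : (0 : ℝ) < (1 / 2 : ℝ) ^ (m + 1) := by positivity
      calc ‖c.coeff (m + 1 + k)‖ * (‖u‖ ^ (m + 1) * ‖u‖ ^ k)
          ≤ ‖c.coeff (m + 1 + k)‖ * (‖u‖ ^ (m + 1) * (1 / 2 : ℝ) ^ k) := by gcongr
        _ = ‖c.coeff (m + 1 + k)‖ * ((1 / 2 : ℝ) ^ (m + 1) * (1 / 2 : ℝ) ^ k)
              * (‖u‖ ^ (m + 1) * ((1 / 2 : ℝ) ^ (m + 1))⁻¹) := by
            field_simp
  have h2 := h1.norm_le_of_bounded (hS.mul_right _) hbound
  rw [zero_sub, add_zero, norm_neg, norm_mul, norm_zpow] at h2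
  have hum : 0 < ‖u‖ ^ m := by positivity
  have h3 : ‖c.coeff m‖ * ‖u‖ ^ m
      ≤ S * (‖u‖ * ((1 / 2 : ℝ) ^ (m + 1))⁻¹) * ‖u‖ ^ m := by
    calc ‖c.coeff m‖ * ‖u‖ ^ m ≤ S * (‖u‖ ^ (m + 1) * ((1 / 2 : ℝ) ^ (m + 1))⁻¹) := h2
      _ = S * (‖u‖ * ((1 / 2 : ℝ) ^ (m + 1))⁻¹) * ‖u‖ ^ m := by
          rw [zpow_add₀ hupos.ne', zpow_one]; ring
  exact le_of_mul_le_mul_right h3 hum

/-- Identity theorem for Laurent expansions. -/
theorem eq_zero [NeZero N] (h : HasUExp N (fun _ => 0) c) : c = 0 := by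
  by_contra hc
  have hcm : c.coeff c.order ≠ 0 := fun h0 => hc (HahnSeries.coeff_order_eq_zero.mp h0)
  have hpos : 0 < ‖c.coeff c.order‖ := norm_pos_iff.mpr hcm
  obtain ⟨τ₀, hτ₀⟩ := exists_uPar_eq N (z := (1 / 2 : ℂ)) (by norm_num)
    (by rw [norm_div, norm_one, Complex.norm_ofNat]; norm_num)
  have hsum : Summable fun n : ℤ => ‖c.coeff n * uPar N τ₀ ^ n‖ := (h τ₀).summable.norm
  obtain ⟨S, hS⟩ := hsum
  have hS0 : 0 ≤ S := hS.nonneg fun n => norm_nonneg _
  set K : ℝ := ((1 / 2 : ℝ) ^ (c.order + 1))⁻¹ with hK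
  have hKpos : 0 < K := by positivity
  -- choose a small radius
  set r : ℝ := min (1 / 2) (‖c.coeff c.order‖ / (2 * K * (S + 1))) with hr
  have hrpos : 0 < r := by
    apply lt_min (by norm_num)
    positivity
  have hr1 : r ≤ 1 / 2 := min_le_left _ _
  have hr2 : r ≤ ‖c.coeff c.order‖ / (2 * K * (S + 1)) := min_le_right _ _
  obtain ⟨τ, hτ⟩ := exists_uPar_eq N (z := (r : ℂ))
    (by exact_mod_cast hrpos.ne')
    (by rw [Complex.norm_real, Real.norm_of_nonneg hrpos.le]; linarith)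
  have hnorm : ‖uPar N τ‖ = r := by
    rw [hτ, Complex.norm_real, Real.norm_of_nonneg hrpos.le]
  have key := h95_norm_coeff_order_le h S τ₀ hτ₀ hS τ (by rw [hnorm]; exact hr1)
  rw [hnorm] at key
  have h4 : S * (r * K) ≤ S * (‖c.coeff c.order‖ / (2 * K * (S + 1)) * K) := by gcongr
  have h5 : S * (‖c.coeff c.order‖ / (2 * K * (S + 1)) * K)
      = ‖c.coeff c.order‖ * (S / (2 * (S + 1))) := by
    field_simp
  have h6 : S / (2 * (S + 1)) < 1 := by
    rw [div_lt_one (by positivity)]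
    linarith
  have h7 : ‖c.coeff c.order‖ * (S / (2 * (S + 1))) < ‖c.coeff c.order‖ := by
    calc ‖c.coeff c.order‖ * (S / (2 * (S + 1))) < ‖c.coeff c.order‖ * 1 := by gcongr
      _ = ‖c.coeff c.order‖ := mul_one _
  linarith

theorem unique [NeZero N] (hf : HasUExp N f c) (hf' : HasUExp N f c') : c = c' := by
  have h := (hf.sub hf').congr (g := fun _ => 0) (fun τ => sub_self _)
  exact sub_eq_zero.mp h.eq_zero

/-- A function with an expansion without negative terms is bounded at `∞`. -/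
theorem isBoundedAtImInfty [NeZero N] (hf : HasUExp N f c) (hc : ∀ n : ℤ, n < 0 → c.coeff n = 0) :
    IsBoundedAtImInfty f := by
  rw [UpperHalfPlane.isBoundedAtImInfty_iff]
  have hN : (0 : ℝ) < N := Nat.cast_pos.mpr (NeZero.pos N)
  set τ₀ : ℍ := UpperHalfPlane.I with hτ₀
  have hsum : Summable fun n : ℤ => ‖c.coeff n * uPar N τ₀ ^ n‖ := (hf τ₀).summable.norm
  obtain ⟨M, hM⟩ := hsum
  refine ⟨M, 1, fun τ hτ => ?_⟩
  have hle : ‖uPar N τ‖ ≤ ‖uPar N τ₀‖ := by
    simp only [uPar, Function.Periodic.norm_qParam]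
    apply Real.exp_le_exp.mpr
    have h1 : (τ₀ : ℂ).im = 1 := by simp [hτ₀]
    have h2 : (1 : ℝ) ≤ (τ : ℂ).im := hτ
    rw [h1]
    apply div_le_div_of_nonneg_right _ hN.le
    nlinarith [Real.pi_pos]
  refine (hf τ).norm_le_of_bounded hM fun n => ?_
  rcases lt_or_ge n 0 with hn | hn
  · rw [hc n hn]
    simp
  · obtain ⟨k, rfl⟩ := Int.eq_ofNat_of_zero_le hn
    rw [norm_mul, norm_mul, zpow_natCast, zpow_natCast, norm_pow, norm_pow]
    gcongr

end HasUExp

end Fermat.Agent.S24
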